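import Fermat.Agent.S36.Norm.Tools.NormEv
import Fermat.Agent.S36.Norm.RegNorm

/-!
# S36/Norm/Tools (T4), (T5): how to instantiate `NodeCover` and `NodesGlued` downstairs

`Fb i` (`i : ι`) the components upstairs, `Fb1 a` (`a : ι1`) the components downstairs, `s a : J a → ι` the components above `a`.
A *branch* is a pair `⟨i, P⟩ : Σ i, Place k (Fb i)`.

* `BranchAbove s a P1 β r` : the branch `β` lies above the branch `(a, P1)`, with ramification index `≥ r`.  **This is the only thing which GEO has to prove, node by node**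
  (constructor: `BranchAbove.mk'`), together with the numerical identity `[F : F1] ≤ ∑_{e ↦ e1} r e`.
* `FibreAt s a P1 Is b r` : the branches above `(a, P1)` are exactly the `b t`, `t ∈ Is`, with ramification indices `r t`.
* `fibreAt_of_branchAbove` : counting.
* `nodeCover_of_branchAbove` : **(T5)**.
* `NodesGlued.descend` : **(T4)**.
-/

set_option autoImplicit false

noncomputable section

namespace Fermat.Agent.S36.Norm

open AlgebraicCurve Fermat.Agent.Lib.RR Fermat.Agent.GAL.RED Fermat.Agent.DR.Abs Fermat.Agent.S36.Abs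

variable {k : Type*} [Field k] [IsAlgClosed k] {ι ι1 : Type*}
  {Fb : ι → Type*} [∀ i, Field (Fb i)] [∀ i, Algebra k (Fb i)] [∀ i, IsFF k (Fb i)]
  {Fb1 : ι1 → Type*} [∀ a, Field (Fb1 a)] [∀ a, Algebra k (Fb1 a)] [∀ a, IsFF k (Fb1 a)]
  {J : ι1 → Type*} [∀ a, Fintype (J a)] (s : ∀ a, J a → ι) [∀ a j, Algebra (Fb1 a) (Fb (s a j))]
  [∀ a j, IsScalarTower k (Fb1 a) (Fb (s a j))] [∀ a j, FiniteDimensional (Fb1 a) (Fb (s a j))]

/-- The branch `β` upstairs lies above the branch `(a, P1)` downstairs, with ramification index `≥ r`. -/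
def BranchAbove (a : ι1) (P1 : Place k (Fb1 a)) (β : Σ i, Place k (Fb i)) (r : ℕ) : Prop :=
  ∃ (j : J a) (w : Place k (Fb (s a j))), β = ⟨s a j, w⟩ ∧ w.restrict (Fb1 a) = P1 ∧
    r ≤ w.ramificationIndex (Fb1 a)

theorem BranchAbove.mk' {a : ι1} {P1 : Place k (Fb1 a)} (j : J a) (w : Place k (Fb (s a j)))
    (hw : w.restrict (Fb1 a) = P1) {r : ℕ} (hr : r ≤ w.ramificationIndex (Fb1 a)) :
    BranchAbove s a P1 ⟨s a j, w⟩ r := ⟨j, w, rfl, hw, hr⟩

/-- The branches above `(a, P1)` are exactly the `b t`, `t ∈ Is`, with ramification indices `r t`. -/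
def FibreAt (a : ι1) (P1 : Place k (Fb1 a)) {I : Type*} (Is : Finset I)
    (b : I → Σ i, Place k (Fb i)) (r : I → ℕ) : Prop :=
  (∀ j, ∀ w ∈ P1.fiber (Fb (s a j)), ∃ t ∈ Is, b t = ⟨s a j, w⟩) ∧
    ∀ φ : (Σ i, Place k (Fb i)) → k,
      ∏ j, ∏ w ∈ P1.fiber (Fb (s a j)), φ ⟨s a j, w⟩ ^ (w.ramificationIndex (Fb1 a)) =
        ∏ t ∈ Is, φ (b t) ^ r t

variable {s}

/-- values of pull-backs.  (`obtain ⟨j, w, rfl, rfl, -⟩ := h`; `hz`, `ev_algebraMap_restrict`.) -/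
theorem BranchAbove.ev_eq {a : ι1} {P1 : Place k (Fb1 a)} {β : Σ i, Place k (Fb i)} {r : ℕ}
    (h : BranchAbove s a P1 β r) (z : ∀ i, Fb i) (v : ∀ a, Fb1 a)
    (hz : ∀ a j, z (s a j) = algebraMap (Fb1 a) (Fb (s a j)) (v a)) :
    ev β.2 (z β.1) = ev P1 (v a) := by
  obtain ⟨j, w, rfl, rfl, -⟩ := h
  change ev w (z (s a j)) = _
  rw [hz]
  exact ev_algebraMap_restrict w (v a)

theorem Branch_count {α I : Type*} [DecidableEq α] (X : Finset α) (ε : α → ℕ)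
    (hε : ∀ x ∈ X, 0 < ε x) (Is : Finset I) (c : I → α) (r : I → ℕ) (hc : ∀ t ∈ Is, c t ∈ X)
    (hinj : Set.InjOn c Is) (hr : ∀ t ∈ Is, r t ≤ ε (c t)) (hsum : ∑ x ∈ X, ε x ≤ ∑ t ∈ Is, r t) :
    Is.image c = X ∧ ∀ t ∈ Is, r t = ε (c t) := by
  have hsub : Is.image c ⊆ X := Finset.image_subset_iff.2 hc
  have h1 : ∑ t ∈ Is, r t ≤ ∑ t ∈ Is, ε (c t) := Finset.sum_le_sum hr
  have h2 : ∑ t ∈ Is, ε (c t) = ∑ x ∈ Is.image c, ε x := (Finset.sum_image hinj).symm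
  have h3 : ∑ x ∈ Is.image c, ε x ≤ ∑ x ∈ X, ε x := Finset.sum_le_sum_of_subset hsub
  constructor
  · by_contra hne
    obtain ⟨x, hx, hx'⟩ := Finset.exists_of_ssubset (Finset.ssubset_iff_subset_ne.2 ⟨hsub, hne⟩)
    have h4 : ∑ x ∈ Is.image c, ε x < ∑ x ∈ X, ε x :=
      Finset.sum_lt_sum_of_subset hsub hx hx' (hε x hx) (fun _ _ _ => Nat.zero_le _)
    omega
  · exact (Finset.sum_eq_sum_iff_of_le hr).1 (by omega)

/-- **Counting.**
PROOF. `X := Finset.univ.sigma (fun j => P1.fiber (Fb (s a j))) : Finset (Σ j, Place k (Fb (s a j)))`, `ψ : (Σ j, Place k (Fb (s a j))) → Σ i, Place k (Fb i)`, `ψ ⟨j, w⟩ = ⟨s a j, w⟩`,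
injective (`hs`; after `j = j'` use `eq_of_heq`/`Sigma.mk.inj_iff`), `ε ⟨j, w⟩ := w.ramificationIndex (Fb1 a) > 0`.  `∑_X ε = ∑ j, [Fb (s a j) : Fb1 a]` (`Finset.sum_sigma`, `(hG j).sum`).
By `hb` choose `c : I → Σ j, ..` with `c t ∈ X`, `ψ (c t) = b t`, `r t ≤ ε (c t)` for `t ∈ Is`; `c` is injective on `Is` (`hinj`).
`∑_X ε ≤ ∑_Is r ≤ ∑_Is ε ∘ c = ∑_{c(Is)} ε ≤ ∑_X ε`: so `c (Is) = X` (`ε > 0`) and `r t = ε (c t)`.
The product formula: `Finset.prod_sigma'`, `Finset.prod_image`/`Finset.prod_bij`. -/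
theorem fibreAt_of_branchAbove {a : ι1} {P1 : Place k (Fb1 a)} (hs : Function.Injective (s a))
    (hG : ∀ j, GoodExt k (Fb1 a) (Fb (s a j))) {I : Type*} (Is : Finset I)
    (b : I → Σ i, Place k (Fb i)) (r : I → ℕ) (hb : ∀ t ∈ Is, BranchAbove s a P1 (b t) (r t))
    (hinj : Set.InjOn b Is)
    (hsum : ∑ j, Module.finrank (Fb1 a) (Fb (s a j)) ≤ ∑ t ∈ Is, r t) :
    FibreAt s a P1 Is b r := by
  classical
  have hb' : ∀ t : {t // t ∈ Is}, ∃ x : Σ j, Place k (Fb (s a j)),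
      b t = ⟨s a x.1, x.2⟩ ∧ x.2.restrict (Fb1 a) = P1 ∧ r t ≤ x.2.ramificationIndex (Fb1 a) := by
    rintro ⟨t, ht⟩
    obtain ⟨j, w, h1, h2, h3⟩ := hb t ht
    exact ⟨⟨j, w⟩, h1, h2, h3⟩
  choose c hc1 hc2 hc3 using hb'
  obtain ⟨X, hX⟩ : ∃ X : Finset (Σ j, Place k (Fb (s a j))),
      X = Finset.univ.sigma (fun j => P1.fiber (Fb (s a j))) := ⟨_, rfl⟩
  obtain ⟨ε, hε⟩ : ∃ ε : (Σ j, Place k (Fb (s a j))) → ℕ,
      ε = fun x => x.2.ramificationIndex (Fb1 a) := ⟨_, rfl⟩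
  have hcinj : Set.InjOn c (Is.attach : Finset {t // t ∈ Is}) := by
    intro t _ t' _ h
    apply Subtype.ext
    apply hinj t.2 t'.2
    rw [hc1, hc1, h]
  have hsumX : ∑ x ∈ X, ε x = ∑ j, Module.finrank (Fb1 a) (Fb (s a j)) := by
    rw [hX, hε, Finset.sum_sigma]
    exact Finset.sum_congr rfl fun j _ => (hG j).sum P1
  obtain ⟨him, hreq⟩ := Branch_count X ε
    (fun x _ => by rw [hε]; exact x.2.ramificationIndex_pos) Is.attach c (fun t => r t)
    (fun t _ => by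
      rw [hX, Finset.mem_sigma]
      exact ⟨Finset.mem_univ _, Place.mem_fiber.2 (hc2 t)⟩)
    hcinj (fun t _ => by rw [hε]; exact hc3 t)
    (by rw [hsumX, Finset.sum_attach Is r]; exact hsum)
  refine ⟨fun j w hw => ?_, fun φ => ?_⟩
  · have hmem : (⟨j, w⟩ : Σ j, Place k (Fb (s a j))) ∈ Is.attach.image c := by
      rw [him, hX, Finset.mem_sigma]
      exact ⟨Finset.mem_univ _, hw⟩
    obtain ⟨t, -, ht⟩ := Finset.mem_image.1 hmem
    exact ⟨t, t.2, by rw [hc1, ht]⟩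
  · have e1 : ∏ j, ∏ w ∈ P1.fiber (Fb (s a j)), φ ⟨s a j, w⟩ ^ (w.ramificationIndex (Fb1 a)) =
        ∏ x ∈ X, φ ⟨s a x.1, x.2⟩ ^ ε x := by
      rw [hX, hε, Finset.prod_sigma]
    rw [e1, ← him, Finset.prod_image hcinj, ← Finset.prod_attach Is]
    refine Finset.prod_congr rfl fun t ht => ?_
    rw [← hc1, ← hreq t ht]

/-- the value of a product.  (induction on the `Finset`; `DR.Abs.ev_mul`, `DR.Abs.ord_mul_nonneg`, `ev_one`.) -/
theorem ev_prod_of_nonneg {L : Type*} [Field L] [Algebra k L] [IsFF k L] (P : Place k L) {κ : Type*}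
    (S : Finset κ) (u : κ → L) (hu : ∀ t ∈ S, 0 ≤ P.ord (u t)) :
    0 ≤ P.ord (∏ t ∈ S, u t) ∧ ev P (∏ t ∈ S, u t) = ∏ t ∈ S, ev P (u t) := by
  classical
  induction S using Finset.induction_on with
  | empty =>
    simp only [Finset.prod_empty, ev_one, and_true]
    exact (Lib.PlaceEval.mem_iff P).1 (one_mem _)
  | insert t S ht ih =>
    obtain ⟨h1, h2⟩ := ih fun t' ht' => hu t' (Finset.mem_insert_of_mem ht')
    have h0 := hu t (Finset.mem_insert_self t S)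
    rw [Finset.prod_insert ht, Finset.prod_insert ht]
    exact ⟨ord_mul_nonneg P h0 h1, by rw [ev_mul P h0 h1, h2]⟩

/-- the value of the family of the norms at a branch downstairs.
PROOF. `normFam s u a = ∏ j, Algebra.norm (Fb1 a) (u (s a j))`.  For every `j` and `w` in the fibre, `⟨s a j, w⟩ = b t` for some `t ∈ Is` (`h.1`), so `u (s a j)` is regular and does not
vanish at `w` (`hu`; rewrite along the equality of sigma types: `obtain ⟨t, ht, hbt⟩ := h.1 j w hw; have := hu t ht; rw [hbt] at this`).  `(hG j).ev`, `ev_prod_of_nonneg`,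
then `h.2 (fun β => ev β.2 (u β.1))`. -/
theorem FibreAt.ev_normFam {a : ι1} {P1 : Place k (Fb1 a)}
    (hG : ∀ j, GoodExt k (Fb1 a) (Fb (s a j))) {I : Type*} {Is : Finset I}
    {b : I → Σ i, Place k (Fb i)} {r : I → ℕ} (h : FibreAt s a P1 Is b r) (u : ∀ i, Fb i)
    (hu : ∀ t ∈ Is, 0 ≤ (b t).2.ord (u (b t).1) ∧ ev (b t).2 (u (b t).1) ≠ 0) :
    ev P1 (normFam s u a) = ∏ t ∈ Is, ev (b t).2 (u (b t).1) ^ r t := by
  have hunit : ∀ j, ∀ w ∈ P1.fiber (Fb (s a j)), 0 ≤ w.ord (u (s a j)) ∧ ev w (u (s a j)) ≠ 0 := by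
    intro j w hw
    obtain ⟨t, ht, hbt⟩ := h.1 j w hw
    have := hu t ht
    rw [hbt] at this
    exact this
  have hN := fun j => (hG j).ev P1 (u (s a j)) (hunit j)
  rw [normFam, (ev_prod_of_nonneg P1 Finset.univ _ fun j _ => (hN j).1).2,
    ← h.2 (fun β => ev β.2 (u β.1))]
  exact Finset.prod_congr rfl fun j _ => (hN j).2

variable {E E1 : Type*} [Fintype E] [DecidableEq E1] {N1 : NodeData k Fb1 E1} {N : NodeData k Fb E}
  {πE : E → E1} {r : E → ℕ}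

/-- **(T5)** `NodeCover` from: every branch of a node `e` lies above the corresponding branch of `πE e` with ramification index `≥ r e`, and the `r e` add up to the degree.
PROOF. `fibreAt_of_branchAbove` with `Is = univ.filter (πE · = e1)`, `b e = ⟨N.i₁ e, N.p₁ e⟩ = N.branch (Sum.inl e)` (injective by `hN`), resp. `N.branch (Sum.inr e)`;
for `e` in the filter rewrite `πE e = e1` in `h₁ e` (`subst`/`▸`: do `rintro e he; obtain rfl := (Finset.mem_filter.1 he).2`).  `FibreAt.ev_normFam`; `UnitsAt N u`. -/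
theorem nodeCover_of_branchAbove (hs : ∀ a, Function.Injective (s a))
    (hG : ∀ a j, GoodExt k (Fb1 a) (Fb (s a j))) (hN : Function.Injective N.branch)
    (h₁ : ∀ e, BranchAbove s (N1.i₁ (πE e)) (N1.p₁ (πE e)) ⟨N.i₁ e, N.p₁ e⟩ (r e))
    (h₂ : ∀ e, BranchAbove s (N1.i₂ (πE e)) (N1.p₂ (πE e)) ⟨N.i₂ e, N.p₂ e⟩ (r e))
    (hsum₁ : ∀ e1, ∑ j, Module.finrank (Fb1 (N1.i₁ e1)) (Fb (s (N1.i₁ e1) j)) ≤
      ∑ e with πE e = e1, r e)
    (hsum₂ : ∀ e1, ∑ j, Module.finrank (Fb1 (N1.i₂ e1)) (Fb (s (N1.i₂ e1) j)) ≤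
      ∑ e with πE e = e1, r e) :
    NodeCover s N1 N πE r := by
  constructor
  · intro u hu e1
    have hF := fibreAt_of_branchAbove (hs (N1.i₁ e1)) (hG (N1.i₁ e1))
      (Finset.univ.filter (fun e => πE e = e1)) (fun e => (⟨N.i₁ e, N.p₁ e⟩ : Σ i, Place k (Fb i))) r
      (by
        rintro e he
        obtain rfl := (Finset.mem_filter.1 he).2
        exact h₁ e)
      (fun e _ e' _ hee => Sum.inl_injective (hN (a₁ := Sum.inl e) (a₂ := Sum.inl e') hee))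
      (hsum₁ e1)
    exact hF.ev_normFam (hG (N1.i₁ e1)) u fun e _ => (hu e).1
  · intro u hu e1
    have hF := fibreAt_of_branchAbove (hs (N1.i₂ e1)) (hG (N1.i₂ e1))
      (Finset.univ.filter (fun e => πE e = e1)) (fun e => (⟨N.i₂ e, N.p₂ e⟩ : Σ i, Place k (Fb i))) r
      (by
        rintro e he
        obtain rfl := (Finset.mem_filter.1 he).2
        exact h₂ e)
      (fun e _ e' _ hee => Sum.inr_injective (hN (a₁ := Sum.inr e) (a₂ := Sum.inr e') hee))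
      (hsum₂ e1)
    exact hF.ev_normFam (hG (N1.i₂ e1)) u fun e _ => (hu e).2

section descend

variable {K F F1 : Type*} [Field K] [IsAlgClosed K] [Field F] [Algebra K F] [IsFF K F] [Field F1]
  [Algebra K F1] [IsFF K F1] [Algebra F1 F] [IsScalarTower K F1 F] [FiniteDimensional F1 F]
  {T1 : MultiRed K F1 k Fb1} {T : MultiRed K F k Fb}

/-- regular functions pull back to regular functions.
PROOF. `RegNorm_exists_mem_L_poleDiv_iff` (`S36/Norm/RegNorm.lean`; `∃ a, y ∈ L(a (x)_∞) ↔ ∀ P, 0 ≤ P.ord x → 0 ≤ P.ord y`) on both sides;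
for a place `P` of `F`: `ord_algebraMap_nonneg_iff` (with `k := K`). -/
theorem exists_mem_L_algebraMap {x1 y1 : F1}
    (h : ∃ a : ℕ, y1 ∈ riemannRochSpace (a • poleDiv (K := K) x1)) :
    ∃ a : ℕ, algebraMap F1 F y1 ∈ riemannRochSpace (a • poleDiv (K := K) (algebraMap F1 F x1)) := by
  rw [RegNorm_exists_mem_L_poleDiv_iff] at h ⊢
  intro P hP
  rw [ord_algebraMap_nonneg_iff] at hP ⊢
  exact h _ hP

/-- **(T4)** the nodes downstairs are glued as soon as each of them has a (glued) node above it.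
PROOF. Let `y1 ∈ T1.O` be regular, `y := algebraMap y1`.  `y ∈ T.O`: every `i` is `s a j` (`hall`), `(hC.ov a).mem j y1 (hy1 a)`.  `y` is regular (`exists_mem_L_algebraMap`).
`T.red y (s a j) = algebraMap (T1.red y1 a)` (`(hC.ov a).red`).  For `e1 = πE e` (`hπ`): `hG y _ _ e`, `(h₁ e).ev_eq (T.red y) (T1.red y1) _`, `(h₂ e).ev_eq ..`. -/
theorem NodesGlued.descend {x1 : F1} (hC : Cover s T1 T) (hall : ∀ i, ∃ a j, s a j = i)
    (hπ : Function.Surjective πE)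
    (h₁ : ∀ e, BranchAbove s (N1.i₁ (πE e)) (N1.p₁ (πE e)) ⟨N.i₁ e, N.p₁ e⟩ (r e))
    (h₂ : ∀ e, BranchAbove s (N1.i₂ (πE e)) (N1.p₂ (πE e)) ⟨N.i₂ e, N.p₂ e⟩ (r e))
    (hG : NodesGlued T (algebraMap F1 F x1) N) : NodesGlued T1 x1 N1 := by
  intro y1 hy1 hreg e1
  obtain ⟨e, rfl⟩ := hπ e1
  have hyO : algebraMap F1 F y1 ∈ T.O := by
    intro i
    obtain ⟨a, j, rfl⟩ := hall i
    exact (hC.ov a).mem j y1 (hy1 a)
  have hred : ∀ a j, T.red (algebraMap F1 F y1) (s a j)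
      = algebraMap (Fb1 a) (Fb (s a j)) (T1.red y1 a) :=
    fun a j => (hC.ov a).red j y1 (hy1 a)
  have h := hG _ hyO (exists_mem_L_algebraMap hreg) e
  have e1 : ev (N.p₁ e) (T.red (algebraMap F1 F y1) (N.i₁ e))
      = ev (N1.p₁ (πE e)) (T1.red y1 (N1.i₁ (πE e))) := (h₁ e).ev_eq _ _ hred
  have e2 : ev (N.p₂ e) (T.red (algebraMap F1 F y1) (N.i₂ e))
      = ev (N1.p₂ (πE e)) (T1.red y1 (N1.i₂ (πE e))) := (h₂ e).ev_eq _ _ hred
  rw [e1, e2] at h
  exact h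

end descend

end Fermat.Agent.S36.Norm
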