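import Fermat.Agent.S36.Norm.Defs
import Fermat.Agent.GAL.RED.Basic

/-!
# S36/Norm/Tools (T6): the map induced on the residue fields

`R1 : RedData K F1 k Fb1`, `R : RedData K F k Fb`, `φ : F1 →+* F` a ring homomorphism (NOT necessarily `K`-linear: the inclusion of a subfield, or a semilinear automorphism)
with `φ⁻¹ (R.O) = R1.O`, compatible with the reductions of the constants.  Then there is a unique `k`-algebra homomorphism
`h.resMap : Fb1 →ₐ[k] Fb` with `h.resMap (R1.red y) = R.red (φ y)` for `y ∈ R1.O`.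

* `RedHom.algebra` : the corresponding `Algebra Fb1 Fb` (use it with `letI`), `RedHom.isScalarTower`;
* `RedHom.resEquiv` : if `φ` is onto, `resMap` is an isomorphism;
* `redHom_algebraMap` : the case of a subfield; `redHom_semilinear` : the case of a semilinear automorphism acting trivially on the residue field `k`.
-/

set_option autoImplicit false

noncomputable section

namespace Fermat.Agent.S36.Norm

open AlgebraicCurve Fermat.Agent.GAL Fermat.Agent.GAL.RED Fermat.Agent.DR.Abs

variable {K F F1 k Fb Fb1 : Type*} [Field K] [Field F] [Algebra K F] [Field F1] [Algebra K F1]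
  [Field k] [Field Fb] [Algebra k Fb] [Field Fb1] [Algebra k Fb1]

/-- `φ` is compatible with the reductions `R1`, `R`. -/
structure RedHom (R1 : RedData K F1 k Fb1) (R : RedData K F k Fb) (φ : F1 →+* F) : Prop where
  comap : R.O.comap φ = R1.O
  const : ∀ a ∈ R1.A, R.red (φ (algebraMap K F1 a)) = algebraMap k Fb (R1.redA a)

namespace RedHom

variable {R1 : RedData K F1 k Fb1} {R : RedData K F k Fb} {φ : F1 →+* F}

theorem mem_iff (h : RedHom R1 R φ) (y : F1) : φ y ∈ R.O ↔ y ∈ R1.O := by
  rw [← h.comap]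
  rfl

/-- the restriction of `φ` to the valuation rings, followed by the residue map. -/
def preMap (h : RedHom R1 R φ) : ↥R1.O →+* Fb :=
  R.res.comp ((φ.comp R1.O.subtype).codRestrict R.O.toSubring (fun y => (h.mem_iff y).2 y.2))

theorem preMap_apply (h : RedHom R1 R φ) (y : ↥R1.O) : h.preMap y = R.red (φ y) := by
  rw [R.red_of_mem ((h.mem_iff y).2 y.2)]
  rfl

theorem ker_le (h : RedHom R1 R φ) : RingHom.ker R1.res ≤ RingHom.ker h.preMap := by
  intro y hy
  rw [RingHom.mem_ker] at hy ⊢
  rw [h.preMap_apply]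
  by_contra hne
  obtain ⟨-, -, h3⟩ := R.red_ne_zero_iff.1 hne
  rw [← map_inv₀, h.mem_iff] at h3
  have h0 : (y : F1) ≠ 0 := by
    intro h0
    rw [h0, map_zero, R.red_zero] at hne
    exact hne rfl
  have h4 : R1.red (y : F1) ≠ 0 := R1.red_ne_zero_iff.2 ⟨h0, y.2, h3⟩
  rw [R1.red_of_mem y.2] at h4
  exact h4 hy

/-- the induced ring homomorphism. -/
def resRingHom (h : RedHom R1 R φ) : Fb1 →+* Fb :=
  RingHom.liftOfRightInverse R1.res (Function.surjInv R1.res_surjective)
    (Function.rightInverse_surjInv R1.res_surjective) ⟨h.preMap, h.ker_le⟩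

theorem resRingHom_res (h : RedHom R1 R φ) (y : ↥R1.O) : h.resRingHom (R1.res y) = R.red (φ y) := by
  rw [← h.preMap_apply]
  exact RingHom.liftOfRightInverse_comp_apply R1.res _ _ ⟨h.preMap, h.ker_le⟩ y

/-- **The map induced on the residue fields.** -/
def resMap (h : RedHom R1 R φ) : Fb1 →ₐ[k] Fb :=
  { h.resRingHom with
    commutes' := fun c => by
      obtain ⟨a, rfl⟩ := R1.resA_surjective c
      have h1 := h.resRingHom_res ⟨algebraMap K F1 a, R1.algebraMap_mem a a.2⟩
      rw [R1.res_algebraMap a a.2] at h1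
      show h.resRingHom _ = _
      rw [h1]
      show R.red (φ (algebraMap K F1 a)) = _
      rw [h.const a a.2, R1.redA_of_mem a.2] }

theorem resMap_red (h : RedHom R1 R φ) {y : F1} (hy : y ∈ R1.O) :
    h.resMap (R1.red y) = R.red (φ y) := by
  rw [R1.red_of_mem hy]
  exact h.resRingHom_res ⟨y, hy⟩

/-- valid for all `y`. -/
theorem resMap_red' (h : RedHom R1 R φ) (y : F1) : h.resMap (R1.red y) = R.red (φ y) := by
  by_cases hy : y ∈ R1.O
  · exact h.resMap_red hy
  · rw [R1.red_of_not_mem hy, map_zero, R.red_of_not_mem (fun h' => hy ((h.mem_iff y).1 h'))]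

/-- the algebra structure (use with `letI`). -/
@[reducible] def algebra (h : RedHom R1 R φ) : Algebra Fb1 Fb := h.resMap.toRingHom.toAlgebra

theorem isScalarTower (h : RedHom R1 R φ) :
    letI := h.algebra
    IsScalarTower k Fb1 Fb :=
  letI := h.algebra
  IsScalarTower.of_algebraMap_eq fun c => (h.resMap.commutes c).symm

theorem algebraMap_red (h : RedHom R1 R φ) (y : F1) :
    letI := h.algebra
    algebraMap Fb1 Fb (R1.red y) = R.red (φ y) := h.resMap_red' y

/-- (`u = R.red z`, `z ∈ R.O`, `z = φ y`, `y ∈ R1.O` by `mem_iff`.) -/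
theorem resMap_surjective (h : RedHom R1 R φ) (hφ : Function.Surjective φ) :
    Function.Surjective h.resMap := by
  intro u
  obtain ⟨z, rfl⟩ := R.res_surjective u
  obtain ⟨y, hy⟩ := hφ z
  have hyO : y ∈ R1.O := (h.mem_iff y).1 (by rw [hy]; exact z.2)
  refine ⟨R1.red y, ?_⟩
  rw [h.resMap_red hyO, hy, R.red_of_mem z.2]

/-- the induced isomorphism. -/
def resEquiv (h : RedHom R1 R φ) (hφ : Function.Surjective φ) : Fb1 ≃ₐ[k] Fb :=
  AlgEquiv.ofBijective h.resMap ⟨h.resMap.toRingHom.injective, h.resMap_surjective hφ⟩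

theorem resEquiv_red (h : RedHom R1 R φ) (hφ : Function.Surjective φ) (y : F1) :
    h.resEquiv hφ (R1.red y) = R.red (φ y) := h.resMap_red' y

end RedHom

/-- the case of a subfield. -/
theorem redHom_algebraMap [Algebra F1 F] [IsScalarTower K F1 F] {R1 : RedData K F1 k Fb1}
    {R : RedData K F k Fb} (hO : R.O.comap (algebraMap F1 F) = R1.O) (hA : R.A = R1.A)
    (hred : ∀ a, R.redA a = R1.redA a) : RedHom R1 R (algebraMap F1 F) where
  comap := hO
  const := fun a ha => by
    rw [← IsScalarTower.algebraMap_apply, R.red_algebraMap (by rw [hA]; exact ha), hred]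

/-- the case of a semilinear automorphism which maps `R1.O` onto `R.O` and acts trivially on the residue field of the constants. -/
theorem redHom_semilinear {R1 : RedData K F k Fb1} {R : RedData K F k Fb} (g : SemilinearAut K F)
    (hO : ∀ y, g • y ∈ R.O ↔ y ∈ R1.O) (hA : ∀ a ∈ R1.A, SemilinearAut.baseAut g a ∈ R.A)
    (hred : ∀ a ∈ R1.A, R.redA (SemilinearAut.baseAut g a) = R1.redA a) :
    RedHom R1 R ((SemilinearAut.toRingAut g : F ≃+* F) : F →+* F) where
  comap := by
    ext y
    exact hO y
  const := fun a ha => by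
    show R.red (SemilinearAut.toRingAut g (algebraMap K F a)) = _
    rw [SemilinearAut.commutes, R.red_algebraMap (hA a ha), hred a ha]

end Fermat.Agent.S36.Norm
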