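import Fermat.Agent.S36.Norm.Tools.Ev
import Fermat.Agent.S36.Norm.Tools.ResMap
import Fermat.Agent.S36.Norm.RegNorm

/-!
# S36/Norm/Tools (T9): how to instantiate `S36.Abs.IsSymm`

`g` a semilinear automorphism of `F` which permutes the components by `π : Equiv.Perm ι` and induces `gb i : Fb i ≃ₐ[k] Fb (π i)` on the residue fields
(`RedHom.resEquiv` of `Tools/ResMap.lean`, with `redHom_semilinear`).

* `placeMap σ P` : the image of a place by an isomorphism of function fields;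
* `permMap π gb` : the map `G` on the families `∀ i, Fb i`, `permMap π gb z (π i) = gb i (z i)`;
* `BranchMap π gb β β'` : the branch `β` is mapped to the branch `β'`;
* `isSymm_of_branchMap`.
-/

set_option autoImplicit false

noncomputable section

namespace Fermat.Agent.S36.Norm

open AlgebraicCurve Fermat.Agent.Lib.RR Fermat.Agent.GAL Fermat.Agent.GAL.RED Fermat.Agent.DR.Abs
  Fermat.Agent.S36.Abs

section placeMap

variable {k L1 L : Type*} [Field k] [Field L1] [Field L] [Algebra k L1] [Algebra k L]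

/-- The image of a place by an isomorphism. -/
def placeMap (σ : L1 ≃ₐ[k] L) (P : Place k L1) : Place k L where
  toValuationSubring := P.toValuationSubring.comap (σ.symm : L →+* L1)
  algebraMap_mem' a := by
    show σ.symm (algebraMap k L a) ∈ P.toValuationSubring
    rw [AlgEquiv.commutes]
    exact P.algebraMap_mem' a
  ne_top' := fun h => P.ne_top' <| by
    ext y
    simp only [ValuationSubring.mem_top, iff_true]
    have h1 : σ y ∈ P.toValuationSubring.comap (σ.symm : L →+* L1) := by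
      rw [h]
      exact ValuationSubring.mem_top _
    have h2 : σ.symm (σ y) ∈ P.toValuationSubring := h1
    rwa [AlgEquiv.symm_apply_apply] at h2
  isPrincipalIdealRing' := by
    haveI := P.isPrincipalIdealRing'
    let f : ↥P.toValuationSubring →+* ↥(P.toValuationSubring.comap (σ.symm : L →+* L1)) :=
      ((σ : L1 →+* L).comp P.toValuationSubring.subtype).codRestrict
        (P.toValuationSubring.comap (σ.symm : L →+* L1)).toSubring (fun y => by
          show σ.symm (σ (y : L1)) ∈ P.toValuationSubring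
          rw [AlgEquiv.symm_apply_apply]
          exact y.2)
    refine IsPrincipalIdealRing.of_surjective f ?_
    rintro ⟨z, hz⟩
    exact ⟨⟨σ.symm z, hz⟩, Subtype.ext (σ.apply_symm_apply z)⟩

theorem mem_placeMap (σ : L1 ≃ₐ[k] L) (P : Place k L1) (u : L1) :
    σ u ∈ (placeMap σ P).toValuationSubring ↔ u ∈ P.toValuationSubring := by
  show σ.symm (σ u) ∈ P.toValuationSubring ↔ _
  rw [AlgEquiv.symm_apply_apply]

variable [IsAlgClosed k] [IsFF k L1] [IsFF k L]

/-- (`ord_algEquiv`, `mem_placeMap`, `Lib.PlaceEval.mem_iff`.) -/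
theorem placeMap_ord (σ : L1 ≃ₐ[k] L) (P : Place k L1) (u : L1) :
    (placeMap σ P).ord (σ u) = P.ord u :=
  ord_algEquiv σ P (placeMap σ P) (fun u hu => by
    rw [← Lib.PlaceEval.mem_iff] at hu ⊢
    exact (mem_placeMap σ P u).2 hu) u

theorem ev_placeMap (σ : L1 ≃ₐ[k] L) (P : Place k L1) (u : L1) :
    ev (placeMap σ P) (σ u) = ev P u :=
  ev_algEquiv σ P (placeMap σ P) (fun u hu => by
    rw [← Lib.PlaceEval.mem_iff] at hu ⊢
    exact (mem_placeMap σ P u).2 hu) u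

end placeMap

variable {K F k : Type*} [Field K] [Field F] [Algebra K F] [Field k] {ι : Type*}
  {Fb : ι → Type*} [∀ i, Field (Fb i)] [∀ i, Algebra k (Fb i)] {E : Type*}

/-- The map on the families of functions induced by `π`, `gb`. -/
def permMap (π : Equiv.Perm ι) (gb : ∀ i, Fb i ≃ₐ[k] Fb (π i)) (z : ∀ i, Fb i) : ∀ i, Fb i :=
  Equiv.piCongrLeft Fb π (fun i => gb i (z i))

@[simp] theorem permMap_apply (π : Equiv.Perm ι) (gb : ∀ i, Fb i ≃ₐ[k] Fb (π i)) (z : ∀ i, Fb i)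
    (i : ι) : permMap π gb z (π i) = gb i (z i) :=
  Equiv.piCongrLeft_apply_apply Fb π _ i

/-- The branch `β` is mapped to the branch `β'`. -/
def BranchMap (π : Equiv.Perm ι) (gb : ∀ i, Fb i ≃ₐ[k] Fb (π i)) (β β' : Σ i, Place k (Fb i)) :
    Prop :=
  ∃ P' : Place k (Fb (π β.1)), β' = ⟨π β.1, P'⟩ ∧
    ∀ u : Fb β.1, 0 ≤ β.2.ord u → 0 ≤ P'.ord (gb β.1 u)

theorem branchMap_placeMap [IsAlgClosed k] [∀ i, IsFF k (Fb i)] (π : Equiv.Perm ι)
    (gb : ∀ i, Fb i ≃ₐ[k] Fb (π i)) (i : ι) (P : Place k (Fb i)) :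
    BranchMap π gb ⟨i, P⟩ ⟨π i, placeMap (gb i) P⟩ :=
  ⟨placeMap (gb i) P, rfl, fun u hu => by rw [placeMap_ord]; exact hu⟩

/-- (`obtain ⟨P', rfl, hP'⟩ := h` after generalising `β'`; `permMap_apply`, `ev_algEquiv`.) -/
theorem BranchMap.ev_eq [IsAlgClosed k] [∀ i, IsFF k (Fb i)] {π : Equiv.Perm ι}
    {gb : ∀ i, Fb i ≃ₐ[k] Fb (π i)} {β β' : Σ i, Place k (Fb i)} (h : BranchMap π gb β β')
    (z : ∀ i, Fb i) : ev β'.2 (permMap π gb z β'.1) = ev β.2 (z β.1) := by
  obtain ⟨P', rfl, hP'⟩ := h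
  show ev P' (permMap π gb z (π β.1)) = _
  rw [permMap_apply]
  exact ev_algEquiv (gb β.1) β.2 P' hP' _

variable [IsFF K F] [IsAlgClosed K]

/-- `g` preserves the ring of the functions which are regular outside the poles of `x` as soon as `g • x` belongs to it.
PROOF. `RegNorm_exists_mem_L_poleDiv_iff` (`∃ a, y ∈ L(a (x)_∞) ↔ ∀ P, 0 ≤ P.ord x → 0 ≤ P.ord y`).  Let `P` with `0 ≤ P.ord x`; `Q := g⁻¹ • P`;
`SemilinearAut.ord_smul g Q f : (g • Q).ord (g • f) = Q.ord f`, `g • Q = P` (`smul_inv_smul`).  `0 ≤ P.ord (g • x) = Q.ord x` by `hx`, so `0 ≤ Q.ord y = P.ord (g • y)`. -/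
theorem exists_mem_L_smul (g : SemilinearAut K F) {x : F}
    (hx : ∃ a : ℕ, g • x ∈ riemannRochSpace (a • poleDiv (K := K) x)) (y : F) (a : ℕ)
    (hy : y ∈ riemannRochSpace (a • poleDiv (K := K) x)) :
    ∃ a' : ℕ, g • y ∈ riemannRochSpace (a' • poleDiv (K := K) x) := by
  rw [RegNorm_exists_mem_L_poleDiv_iff] at hx ⊢
  have hy' := (RegNorm_exists_mem_L_poleDiv_iff x y).mp ⟨a, hy⟩
  intro P hP
  have h1 := SemilinearAut.ord_smul g (g⁻¹ • P) x
  rw [smul_inv_smul] at h1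
  have h2 := SemilinearAut.ord_smul g (g⁻¹ • P) y
  rw [smul_inv_smul] at h2
  rw [h2]
  apply hy'
  rw [← h1]
  exact hx P hP

/-- **(T9)** -/
theorem isSymm_of_branchMap [IsAlgClosed k] [∀ i, IsFF k (Fb i)] {T : MultiRed K F k Fb} {x : F}
    {N : NodeData k Fb E} (g : SemilinearAut K F) (π : Equiv.Perm ι)
    (gb : ∀ i, Fb i ≃ₐ[k] Fb (π i))
    (hmem : ∀ i, ∀ y ∈ (T.R i).O, g • y ∈ (T.R (π i)).O)
    (hred : ∀ i, ∀ y ∈ (T.R i).O, (T.R (π i)).red (g • y) = gb i ((T.R i).red y))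
    (hx : ∃ a : ℕ, g • x ∈ riemannRochSpace (a • poleDiv (K := K) x)) (πE : Equiv.Perm E)
    (h₁ : ∀ e, BranchMap π gb ⟨N.i₁ e, N.p₁ e⟩ ⟨N.i₁ (πE e), N.p₁ (πE e)⟩)
    (h₂ : ∀ e, BranchMap π gb ⟨N.i₂ e, N.p₂ e⟩ ⟨N.i₂ (πE e), N.p₂ (πE e)⟩) :
    IsSymm T x N g (permMap π gb) (RingHom.id k) πE where
  map_O := fun y hy i => by
    have := hmem (π.symm i) y (hy _)
    rwa [Equiv.apply_symm_apply] at this
  red_map := fun y hy => by
    funext i
    obtain ⟨i', rfl⟩ := π.surjective i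
    rw [permMap_apply, MultiRed.red_apply, hred i' y (hy i')]
    rfl
  map_reg := exists_mem_L_smul g hx
  ev₁ := fun e z _ => (h₁ e).ev_eq z
  ev₂ := fun e z _ => (h₂ e).ev_eq z

end Fermat.Agent.S36.Norm
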