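import Fermat.Agent.S36.Norm.Tools.ResMap
import Fermat.Agent.S36.Norm.Coord

/-!
# S36/Norm/Tools (T7): the fundamental inequality `∑ f_i ≤ [F : F1]`; `Norm.Over` from a lower bound

`R1` a reduction of `F1`, `T` an independent (`T.Sep`) finite family of reductions of `F` above `R1`.  Then the residue extensions are finite and
`∑ i, [Fb i : Fb1] ≤ [F : F1]`.  Hence, to prove `Norm.Over R1 T`, it suffices to prove `[F : F1] ≤ ∑ i, [Fb i : Fb1]`.
-/

set_option autoImplicit false

noncomputable section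

namespace Fermat.Agent.S36.Norm

open AlgebraicCurve Fermat.Agent.GAL Fermat.Agent.GAL.RED Fermat.Agent.DR.Abs

variable {K F k : Type*} [Field K] [Field F] [Algebra K F] [Field k] {ι : Type*}
  {Fb : ι → Type*} [∀ i, Field (Fb i)] [∀ i, Algebra k (Fb i)]
  {F1 : Type*} [Field F1] [Algebra K F1] [Algebra F1 F] [IsScalarTower K F1 F]
  {Fb1 : Type*} [Field Fb1] [Algebra k Fb1] [∀ i, Algebra Fb1 (Fb i)]

/-- **Key lemma.**  Families `β i : Fin (n i) → Fb i` which are linearly independent over `Fb1` lift to an `F1`-linearly independent family of `F`.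
PROOF. By `hsep` (residues `Pi.single i (β i j)`, scalings `1`) choose `b ⟨i, j⟩ ∈ T.O` with `red_i = β i j`, `red_i' = 0` for `i' ≠ i`.
If `∑ a p • b p = 0` with `a ≠ 0`, let `p₀` be as in `exists_max R1.O a` (`S36/Norm/Coord.lean`): `a p / a p₀ ∈ R1.O` for all `p`.  Divide by `a p₀` and reduce at `i = p₀.1`
(`RedData.red_sum`, `red_mul`, `hmem`, `hred`): `0 = ∑ j, R1.red (a ⟨i, j⟩ / a p₀) • β i j`, and the coefficient of `j = p₀.2` is `R1.red 1 = 1`: contradiction with `hβ i`
(`Fintype.linearIndependent_iff`).  (Same computation as `Adapted.red_sum`, `Adapted.linearIndependent`, which assume the full `Over`.) -/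
theorem exists_linearIndependent_lift [Fintype ι] [DecidableEq ι] {R1 : RedData K F1 k Fb1}
    {T : MultiRed K F k Fb} (hsep : T.Sep)
    (hmem : ∀ i (y : F1), y ∈ R1.O → algebraMap F1 F y ∈ (T.R i).O)
    (hred : ∀ i (y : F1), y ∈ R1.O →
      (T.R i).red (algebraMap F1 F y) = algebraMap Fb1 (Fb i) (R1.red y))
    {n : ι → ℕ} (β : ∀ i, Fin (n i) → Fb i) (hβ : ∀ i, LinearIndependent Fb1 (β i)) :
    ∃ b : (Σ i, Fin (n i)) → F, LinearIndependent F1 b := by
  have hex : ∀ p : (Σ i, Fin (n i)), ∃ h : F, ∀ i, h ∈ (T.R i).O ∧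
      (T.R i).red h = (Pi.single p.1 (β p.1 p.2) : ∀ i, Fb i) i := by
    intro p
    obtain ⟨h, hh⟩ := hsep (Pi.single p.1 (β p.1 p.2)) (fun _ => 1) (fun _ => one_ne_zero)
    refine ⟨h, fun i => ?_⟩
    have := hh i
    rwa [one_smul] at this
  choose b hb using hex
  refine ⟨b, ?_⟩
  rw [Fintype.linearIndependent_iff]
  intro a hsum
  by_contra hcon
  push Not at hcon
  obtain ⟨p₀, hp₀, hmax⟩ := exists_max R1.O a hcon
  have h1 : ∑ p, (a p / a p₀) • b p = 0 := by
    have : ∑ p, (a p / a p₀) • b p = (a p₀)⁻¹ • ∑ p, a p • b p := by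
      rw [Finset.smul_sum]
      refine Finset.sum_congr rfl fun p _ => ?_
      rw [smul_smul, div_eq_inv_mul]
    rw [this, hsum, smul_zero]
  have h2 : ∀ p, algebraMap F1 F (a p / a p₀) * b p ∈ (T.R p₀.1).O := fun p =>
    (T.R p₀.1).O.mul_mem _ _ (hmem p₀.1 _ (hmax p)) (hb p p₀.1).1
  have h3 : (T.R p₀.1).red (∑ p, (a p / a p₀) • b p) =
      ∑ j, R1.red (a ⟨p₀.1, j⟩ / a p₀) • β p₀.1 j := by
    simp only [Algebra.smul_def]
    rw [(T.R p₀.1).red_sum _ _ fun p _ => h2 p, Fintype.sum_sigma, Finset.sum_eq_single p₀.1]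
    · refine Finset.sum_congr rfl fun j _ => ?_
      rw [(T.R p₀.1).red_mul (hmem p₀.1 _ (hmax _)) (hb _ p₀.1).1, hred p₀.1 _ (hmax _),
        (hb _ p₀.1).2, Pi.single_eq_same]
    · intro i' _ hne
      refine Finset.sum_eq_zero fun j _ => ?_
      rw [(T.R p₀.1).red_mul (hmem p₀.1 _ (hmax _)) (hb _ p₀.1).1, (hb _ p₀.1).2,
        Pi.single_eq_of_ne (Ne.symm hne), mul_zero]
    · intro hi
      exact absurd (Finset.mem_univ _) hi
  rw [h1, RedData.red_zero] at h3
  have h4 := Fintype.linearIndependent_iff.mp (hβ p₀.1) _ h3.symm p₀.2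
  have h5 : (⟨p₀.1, p₀.2⟩ : Σ i, Fin (n i)) = p₀ := rfl
  rw [h5, div_self hp₀, R1.red_one] at h4
  exact one_ne_zero h4

/-- the residue extensions are finite.
PROOF. By `exists_linearIndependent_lift` (with `n = Pi.single i m`-like: `n i' = if i' = i then m else 0`, or apply it to the subfamily) every `Fb1`-independent family
`Fin m → Fb i` has `m ≤ finrank F1 F` (`LinearIndependent.fintype_card_le_finrank`, `Fintype.card_sigma`).  Hence `Module.rank Fb1 (Fb i) ≤ finrank F1 F < ℵ₀`
(`rank_le`/`Module.rank_le_of_...`: `Module.rank_def`, `ciSup_le'`; or: if not finite there is an independent family of every size, `exists_linearIndependent...`,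
`Module.finite_of_finrank_pos`, `FiniteDimensional.of_finrank_pos`, `IsNoetherian.iff_rank_lt_aleph0`, `Module.rank_lt_aleph0_iff`). -/
theorem finite_of_sep [Fintype ι] [FiniteDimensional F1 F] {R1 : RedData K F1 k Fb1}
    {T : MultiRed K F k Fb} (hsep : T.Sep)
    (hmem : ∀ i (y : F1), y ∈ R1.O → algebraMap F1 F y ∈ (T.R i).O)
    (hred : ∀ i (y : F1), y ∈ R1.O →
      (T.R i).red (algebraMap F1 F y) = algebraMap Fb1 (Fb i) (R1.red y)) (i : ι) :
    Module.Finite Fb1 (Fb i) := by
  classical
  have key : ∀ (m : ℕ) (v : Fin m → Fb i), LinearIndependent Fb1 v →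
      m ≤ Module.finrank F1 F := by
    intro m v hv
    let n : ι → ℕ := fun i' => if i' = i then m else 0
    have hni : n i = m := if_pos rfl
    have hex : ∀ i', ∃ β : Fin (n i') → Fb i', LinearIndependent Fb1 β := by
      intro i'
      by_cases h : i' = i
      · subst h
        rw [hni]
        exact ⟨v, hv⟩
      · have h0 : n i' = 0 := if_neg h
        rw [h0]
        exact ⟨fun j => j.elim0, linearIndependent_empty_type⟩
    choose β hβ using hex
    obtain ⟨b, hb⟩ := exists_linearIndependent_lift hsep hmem hred β hβ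
    have h1 := hb.fintype_card_le_finrank
    rw [Fintype.card_sigma] at h1
    simp only [Fintype.card_fin] at h1
    calc m = n i := hni.symm
      _ ≤ ∑ i', n i' := Finset.single_le_sum (f := n) (fun _ _ => Nat.zero_le _) (Finset.mem_univ i)
      _ ≤ _ := h1
  rw [← Module.rank_lt_aleph0_iff]
  refine lt_of_le_of_lt ?_ (Cardinal.natCast_lt_aleph0 (n := Module.finrank F1 F))
  apply rank_le
  intro t ht
  have h1 : LinearIndependent Fb1 (fun j : Fin t.card => ((t.equivFin.symm j : t) : Fb i)) :=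
    ht.comp _ t.equivFin.symm.injective
  exact key _ _ h1

/-- **The fundamental inequality.**
(`finite_of_sep`, `β i := Module.finBasis Fb1 (Fb i)`, `exists_linearIndependent_lift`, `LinearIndependent.fintype_card_le_finrank`, `Fintype.card_sigma`, `Fintype.card_fin`.) -/
theorem sum_finrank_le [Fintype ι] [FiniteDimensional F1 F] {R1 : RedData K F1 k Fb1}
    {T : MultiRed K F k Fb} (hsep : T.Sep)
    (hmem : ∀ i (y : F1), y ∈ R1.O → algebraMap F1 F y ∈ (T.R i).O)
    (hred : ∀ i (y : F1), y ∈ R1.O →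
      (T.R i).red (algebraMap F1 F y) = algebraMap Fb1 (Fb i) (R1.red y)) :
    ∑ i, Module.finrank Fb1 (Fb i) ≤ Module.finrank F1 F := by
  classical
  have hfin : ∀ i, Module.Finite Fb1 (Fb i) := finite_of_sep hsep hmem hred
  obtain ⟨b, hb⟩ := exists_linearIndependent_lift hsep hmem hred
    (fun i => Module.finBasis Fb1 (Fb i)) (fun i => (Module.finBasis Fb1 (Fb i)).linearIndependent)
  have h1 := hb.fintype_card_le_finrank
  rw [Fintype.card_sigma] at h1
  simpa only [Fintype.card_fin] using h1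

/-- **`Norm.Over` from a lower bound.** -/
theorem Over.of_le [Fintype ι] [FiniteDimensional F1 F] {R1 : RedData K F1 k Fb1}
    {T : MultiRed K F k Fb} (hsep : T.Sep)
    (hmem : ∀ i (y : F1), y ∈ R1.O → algebraMap F1 F y ∈ (T.R i).O)
    (hred : ∀ i (y : F1), y ∈ R1.O →
      (T.R i).red (algebraMap F1 F y) = algebraMap Fb1 (Fb i) (R1.red y))
    (hle : Module.finrank F1 F ≤ ∑ i, Module.finrank Fb1 (Fb i)) : Over R1 T where
  mem := hmem
  red := hred
  fin := finite_of_sep hsep hmem hred
  sum := le_antisymm (sum_finrank_le hsep hmem hred) hle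

/-- a lower bound for a residue degree: a family of integral elements whose reductions are independent.  (trivial: `LinearIndependent.fintype_card_le_finrank`.) -/
theorem card_le_finrank_of_linearIndependent {L1 L : Type*} [Field L1] [Field L] [Algebra L1 L]
    [FiniteDimensional L1 L] {κ : Type*} [Fintype κ] (β : κ → L) (hβ : LinearIndependent L1 β) :
    Fintype.card κ ≤ Module.finrank L1 L := hβ.fintype_card_le_finrank

end Fermat.Agent.S36.Norm
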