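import Mathlib

/-!
# S36/Norm/Tools (T8): two criteria of separability (Mathlib only)
-/

set_option autoImplicit false

namespace Fermat.Agent.S36.Norm

open Polynomial IntermediateField

variable {L1 L : Type*} [Field L1] [Field L] [Algebra L1 L]

/-- An extension of degree `< char` is separable.
PROOF. Let `x : L`, `f := minpoly L1 x`, irreducible (`minpoly.irreducible`, `x` integral since `FiniteDimensional`).  `Polynomial.separable_or q hf`: either `f` is separable, or
`f = expand L1 q g` for some `g`, and then `natDegree f = natDegree g * q ≥ q` (`natDegree_expand`; `natDegree g ≠ 0` since `natDegree f ≠ 0`), contradicting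
`natDegree f ≤ finrank L1 L < q` (`minpoly.natDegree_le`).  `Algebra.isSeparable_def`/`IsSeparable`. -/
theorem isSeparable_of_finrank_lt (q : ℕ) [hq : Fact q.Prime] [CharP L1 q] [FiniteDimensional L1 L]
    (h : Module.finrank L1 L < q) : Algebra.IsSeparable L1 L := by
  refine ⟨fun x => ?_⟩
  have hint : IsIntegral L1 x := Algebra.IsIntegral.isIntegral x
  have hirr := minpoly.irreducible hint
  rcases Polynomial.separable_or q hirr with hs | ⟨-, g, hg, hexp⟩
  · exact hs
  · exfalso
    have h1 : (minpoly L1 x).natDegree = g.natDegree * q := by rw [← hexp, natDegree_expand]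
    have h2 := minpoly.natDegree_le (A := L1) x
    have h3 := minpoly.natDegree_pos hint
    have h4 : 0 < g.natDegree := by
      rcases Nat.eq_zero_or_pos g.natDegree with h0 | h0
      · rw [h0, zero_mul] at h1
        omega
      · exact h0
    nlinarith

/-- A simple extension generated by a simple root of a polynomial is separable.
PROOF. `b` is algebraic (`p ≠ 0` since `derivative p ≠ 0`).  `minpoly L1 b ∣ p`: `p = minpoly * g`, `derivative p = derivative minpoly * g + minpoly * derivative g`, so
`aeval b (derivative (minpoly L1 b)) ≠ 0`, hence `derivative (minpoly L1 b) ≠ 0` and the irreducible polynomial `minpoly L1 b` is separable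
(`Polynomial.separable_iff_derivative_ne_zero`).  So `IsSeparable L1 b`; `IntermediateField.isSeparable_adjoin_simple_iff_isSeparable`; transport along
`IntermediateField.topEquiv` (`Algebra.IsSeparable.of_algHom`/`AlgEquiv.Algebra.isSeparable`). -/
theorem isSeparable_of_simple_root (b : L) (hgen : L1⟮b⟯ = ⊤) (p : L1[X]) (hp : aeval b p = 0)
    (hp' : aeval b (derivative p) ≠ 0) : Algebra.IsSeparable L1 L := by
  have hp0 : p ≠ 0 := by
    rintro rfl
    simp at hp'
  have halg : IsAlgebraic L1 b := ⟨p, hp0, hp⟩
  have hint : IsIntegral L1 b := halg.isIntegral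
  obtain ⟨g, hg⟩ := minpoly.dvd L1 b hp
  have h1 : aeval b (derivative (minpoly L1 b)) ≠ 0 := by
    intro h0
    apply hp'
    rw [hg, derivative_mul, map_add, map_mul, map_mul, h0, minpoly.aeval, zero_mul, zero_mul,
      add_zero]
  have h2 : derivative (minpoly L1 b) ≠ 0 := by
    intro h0
    rw [h0, map_zero] at h1
    exact h1 rfl
  have h3 : IsSeparable L1 b :=
    (Polynomial.separable_iff_derivative_ne_zero (minpoly.irreducible hint)).2 h2
  have h4 : Algebra.IsSeparable L1 L1⟮b⟯ :=
    (IntermediateField.isSeparable_adjoin_simple_iff_isSeparable L1 L).2 h3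
  rw [hgen] at h4
  exact AlgEquiv.Algebra.isSeparable (IntermediateField.topEquiv (F := L1) (E := L))

end Fermat.Agent.S36.Norm
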