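import Fermat.Agent.S36.Norm.Defs
import Fermat.Agent.S19.Weil.NormRes
import Fermat.Agent.GAL.FF.RH.RationalAux

/-!
# S36/Norm/Tools (T1): values at places and extensions of function fields

`k` algebraically closed, `L1 ⊆ L` function fields over `k`, `L / L1` finite.
* `ev_eq_weil` : `DR.Abs.ev = S19.Weil.ev`;
* `restrict_eq_of_le` : a place `w` of `L` lies above the place `v` of `L1` as soon as `O_v ⊆ O_w`;
* `ev_algebraMap_restrict` : `ev w (algebraMap v) = ev (w.restrict L1) v` (for ALL `v`: the junk values agree);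
* `ev_algEquiv` : the same for an isomorphism;
* `place_eq_of_pole`, `place_eq_of_zero` : the places of a rational function field `k(a)`.
-/

set_option autoImplicit false
set_option linter.unusedSectionVars false
set_option linter.style.haveILetI false

noncomputable section

namespace Fermat.Agent.S36.Norm

open AlgebraicCurve Fermat.Agent.Lib.RR Fermat.Agent.GAL.RED Fermat.Agent.DR.Abs IntermediateField

variable {k L1 L : Type*} [Field k] [IsAlgClosed k] [Field L1] [Field L] [Algebra k L1] [Algebra k L]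
  [IsFF k L1] [IsFF k L]

/-- the two notions of value at a place coincide.
PROOF. `DR.Abs.Ev_ev_eq : ev P u = Lib.PlaceEval.ev P u`.  If `0 ≤ P.ord u`: `c := S19.Weil.ev P u` satisfies `u = c` or `0 < ord (u - c)`
(`S19.Weil.ev_sub`, `ev_algebraMap`, the characterisation of `S19.Weil.ev P f = 0` in `S19/Weil/Ev.lean`), conclude by `DR.Abs.ev_eq_of`.
If `P.ord u < 0`: both sides are `0` (`Lib.PlaceEval.ev_of_not_mem`, `mem_iff`; `GRed.gred` outside the ring). -/
theorem ev_eq_weil (P : Place k L) (u : L) : ev P u = Fermat.Agent.S19.Weil.ev P u := by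
  by_cases hu : 0 ≤ P.ord u
  · have hmem : u ∈ P.toValuationSubring := (Lib.PlaceEval.mem_iff P).2 hu
    exact ev_eq_of P (Fermat.Agent.S19.Weil.ord_sub_ev_pos P hmem)
  · rw [Fermat.Agent.S19.Weil.ev_eq_zero_of_ord_neg P (not_le.mp hu), Ev_ev_eq]
    exact Lib.PlaceEval.ev_of_not_mem P (fun h => hu ((Lib.PlaceEval.mem_iff P).1 h))

/-- two places whose rings are comparable are equal. -/
theorem Ev_place_eq_of_le (v v' : Place k L)
    (h : ∀ f : L, 0 ≤ v.ord f → 0 ≤ v'.ord f) : v' = v := by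
  have key : ∀ f : L, 0 ≤ v'.ord f → 0 ≤ v.ord f := by
    intro f hf
    by_contra hneg
    rw [not_le] at hneg
    have hf0 : f ≠ 0 := by
      rintro rfl
      simp at hneg
    -- then every element is `v'`-integral
    apply v'.ne_top'
    refine SetLike.ext fun g => ⟨fun _ => ValuationSubring.mem_top g, fun _ => ?_⟩
    rw [Lib.PlaceEval.mem_iff]
    by_cases hg0 : g = 0
    · subst hg0; simp
    -- `g = f ^ n * (g * f⁻¹ ^ n)`, `n = |ord g|`
    set n : ℕ := (v.ord g).natAbs with hn
    have h1 : 0 ≤ v.ord (g * (f⁻¹) ^ n) := by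
      rw [v.ord_mul hg0 (pow_ne_zero _ (inv_ne_zero hf0)), ← zpow_natCast, v.ord_zpow, v.ord_inv]
      have h2 : (1 : ℤ) ≤ -v.ord f := by omega
      have h3 : (n : ℤ) * 1 ≤ (n : ℤ) * -v.ord f :=
        mul_le_mul_of_nonneg_left h2 (Int.natCast_nonneg n)
      have h4 : -(n : ℤ) ≤ v.ord g := by omega
      omega
    have h2 := h _ h1
    have h3 : g = f ^ n * (g * (f⁻¹) ^ n) := by
      rw [inv_pow]
      field_simp
    rw [h3, v'.ord_mul (pow_ne_zero _ hf0) (mul_ne_zero hg0 (pow_ne_zero _ (inv_ne_zero hf0))),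
      ← zpow_natCast, v'.ord_zpow]
    have := mul_nonneg (Int.natCast_nonneg n) hf
    omega
  apply Place.ext
  ext f
  rw [Lib.PlaceEval.mem_iff, Lib.PlaceEval.mem_iff]
  exact ⟨key f, h f⟩

section ext

variable [Algebra L1 L] [IsScalarTower k L1 L] [FiniteDimensional L1 L]

/-- PROOF. `(w.restrict L1).toValuationSubring ⊇ v.toValuationSubring` (`Place.mem_restrict_iff`, `Lib.PlaceEval.mem_iff`).  Both are discrete valuation
rings of `L1`, different from `L1`; if `f ∈ O_{w|L1} \ O_v` then `v.ord f < 0`; take `π` with `v.ord π = 1` (or any `g` with `v.ord g > 0`, e.g. `f⁻¹`): every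
`h : L1` is `f ^ n * h'` with `v.ord h' ≥ 0` for `n` large, so `O_{w|L1} = L1`, contradicting `Place.ne_top'`.  Places with the same valuation ring are equal
(`Place.ext`-lemma: look at the structure `Place` in `Fermat/Prelude/Def_AlgebraicCurve_*`; e.g. `Place.ext_iff`/`toValuationSubring_injective`). -/
theorem restrict_eq_of_le (w : Place k L) (v : Place k L1)
    (h : ∀ f : L1, 0 ≤ v.ord f → 0 ≤ w.ord (algebraMap L1 L f)) : w.restrict L1 = v := by
  refine Ev_place_eq_of_le v (w.restrict L1) fun f hf => ?_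
  rw [← Lib.PlaceEval.mem_iff, Place.mem_restrict_iff, Lib.PlaceEval.mem_iff]
  exact h f hf

/-- (`Place.ord_restrict`, `Place.ramificationIndex_pos`.) -/
theorem ord_algebraMap_nonneg_iff (w : Place k L) (v : L1) :
    0 ≤ w.ord (algebraMap L1 L v) ↔ 0 ≤ (w.restrict L1).ord v := by
  rw [← Lib.PlaceEval.mem_iff, ← Lib.PlaceEval.mem_iff, Place.mem_restrict_iff]

/-- (`Place.ord_restrict`, `Place.ramificationIndex_pos`.) -/
theorem ord_algebraMap_pos_iff (w : Place k L) (v : L1) :
    0 < w.ord (algebraMap L1 L v) ↔ 0 < (w.restrict L1).ord v := by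
  rw [Place.ord_restrict]
  have he : (0 : ℤ) < (Place.ramificationIndex (F := L1) w : ℤ) := by
    exact_mod_cast w.ramificationIndex_pos (F := L1)
  exact ⟨fun h => (pos_iff_pos_of_mul_pos h).1 he, fun h => mul_pos he h⟩

/-- **(T1)**
PROOF. If `0 ≤ (w.restrict L1).ord v`: `c := ev (w.restrict L1) v`, `DR.Abs.ev_spec`: `v = c` or `0 < ord (v - c)`; apply `algebraMap` (`map_sub`,
`IsScalarTower.algebraMap_apply`), `ord_algebraMap_pos_iff`, `DR.Abs.ev_eq_of`.  Otherwise both sides are `0`
(`Ev_ev_eq`, `Lib.PlaceEval.ev_of_not_mem`, `Lib.PlaceEval.mem_iff`, `ord_algebraMap_nonneg_iff`). -/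
theorem ev_algebraMap_restrict (w : Place k L) (v : L1) :
    ev w (algebraMap L1 L v) = ev (w.restrict L1) v := by
  by_cases hv : 0 ≤ (w.restrict L1).ord v
  · apply ev_eq_of
    rcases ev_spec (w.restrict L1) hv with h | h
    · left
      conv_lhs => rw [h]
      rw [← IsScalarTower.algebraMap_apply]
    · right
      rw [IsScalarTower.algebraMap_apply k L1 L, ← map_sub, ord_algebraMap_pos_iff]
      exact h
  · rw [Ev_ev_eq, Ev_ev_eq, Lib.PlaceEval.ev_of_not_mem, Lib.PlaceEval.ev_of_not_mem]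
    · exact fun h => hv ((Lib.PlaceEval.mem_iff _).1 h)
    · exact fun h => hv ((ord_algebraMap_nonneg_iff w v).1 ((Lib.PlaceEval.mem_iff _).1 h))

end ext

/-- the same for an isomorphism.
PROOF. `letI := σ.toRingHom.toAlgebra` (then `IsScalarTower k L1 L` by `σ.commutes`, `FiniteDimensional L1 L` since `σ` is onto: `finrank = 1`,
e.g. `Module.Finite.of_surjective (Algebra.linearMap L1 L)`); `restrict_eq_of_le`, `ev_algebraMap_restrict`. -/
theorem ev_algEquiv (σ : L1 ≃ₐ[k] L) (P : Place k L1) (P' : Place k L)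
    (h : ∀ u : L1, 0 ≤ P.ord u → 0 ≤ P'.ord (σ u)) (u : L1) : ev P' (σ u) = ev P u := by
  letI : Algebra L1 L := σ.toRingEquiv.toRingHom.toAlgebra
  haveI : IsScalarTower k L1 L := IsScalarTower.of_algebraMap_eq fun c => (σ.commutes c).symm
  haveI : FiniteDimensional L1 L :=
    Module.Finite.of_surjective (Algebra.linearMap L1 L) σ.surjective
  have h1 : P'.restrict L1 = P := restrict_eq_of_le P' P h
  have h2 := ev_algebraMap_restrict (L1 := L1) P' u
  rw [h1] at h2
  exact h2

/-- and the orders agree. -/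
theorem ord_algEquiv (σ : L1 ≃ₐ[k] L) (P : Place k L1) (P' : Place k L)
    (h : ∀ u : L1, 0 ≤ P.ord u → 0 ≤ P'.ord (σ u)) (u : L1) : P'.ord (σ u) = P.ord u := by
  letI : Algebra L1 L := σ.toRingEquiv.toRingHom.toAlgebra
  haveI : IsScalarTower k L1 L := IsScalarTower.of_algebraMap_eq fun c => (σ.commutes c).symm
  haveI : FiniteDimensional L1 L :=
    Module.Finite.of_surjective (Algebra.linearMap L1 L) σ.surjective
  have h1 : P'.restrict L1 = P := restrict_eq_of_le P' P h
  have h2 : ∀ f : L1, P'.ord (σ f) = Place.ramificationIndex (F := L1) P' * P.ord f := by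
    intro f
    have := Place.ord_restrict (F := L1) P' f
    rw [h1] at this
    exact this
  -- a uniformiser of `P'` is in the image
  obtain ⟨π, hπ⟩ := IsDiscreteValuationRing.exists_irreducible P'.toValuationSubring
  have h3 : P'.ord (π : L) = 1 := P'.ord_coe_irreducible hπ
  have h4 := h2 (σ.symm (π : L))
  rw [AlgEquiv.apply_symm_apply, h3] at h4
  have he : (0 : ℤ) < (Place.ramificationIndex (F := L1) P' : ℤ) := by
    exact_mod_cast P'.ramificationIndex_pos (F := L1)
  have h5 : (Place.ramificationIndex (F := L1) P' : ℤ) = 1 :=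
    Int.eq_one_of_dvd_one he.le ⟨_, h4⟩
  rw [h2, h5, one_mul]

omit [IsFF k L] in
/-- a function with a zero or a pole is transcendental. -/
theorem Ev_transcendental_of_ord_ne_zero (a : L) (P : Place k L) (hP : P.ord a ≠ 0) :
    Transcendental k a := by
  intro halg
  apply hP
  have hmem : ∀ f : L, IsAlgebraic k f → f ∈ P.toValuationSubring := by
    intro f hf
    have h1 : IsIntegral P.toValuationSubring f := hf.isIntegral.tower_top
    obtain ⟨y, hy⟩ := IsIntegrallyClosed.algebraMap_eq_of_integral h1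
    rw [← hy]
    exact y.2
  rcases eq_or_ne a 0 with rfl | h0
  · simp
  have h1 := hmem a halg
  have h2 := hmem _ halg.inv
  let u : P.toValuationSubringˣ :=
    ⟨⟨a, h1⟩, ⟨a⁻¹, h2⟩, Subtype.ext (mul_inv_cancel₀ h0), Subtype.ext (inv_mul_cancel₀ h0)⟩
  exact P.ord_coe_unit u

omit [IsFF k L] in
theorem Ev_place_eq_of_zero' (a : L) (hgen : k⟮a⟯ = ⊤) (P Q : Place k L) (hP : 0 < P.ord a)
    (hQ : 0 < Q.ord a) : P = Q := by
  obtain ⟨v₀, -, h⟩ := Fermat.Agent.GAL.FF.RationalAux_exists_unique_zero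
    (Ev_transcendental_of_ord_ne_zero a P hP.ne') hgen
  rw [h P hP, h Q hQ]

/-- In `k(a)` the function `a` has only one pole.
PROOF. `deg (a)_∞ = [L : k(a)] = 1` (look for the degree of the polar divisor in `Lib/RR`, `GAL/RED/CurveBasic.lean`, `GAL/FF`:
`degree_poleDiv`-like statements; `hgen` gives `finrank k⟮a⟯ L = 1`); `poleDiv a P ≥ 1`, `poleDiv a Q ≥ 1`, all the coefficients are `≥ 0`:
if `P ≠ Q` the degree would be `≥ 2`.  (Alternative: `S36/Geo/HPlaces.lean`, `HPlaces_unique_zero` applied to `a⁻¹`.) -/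
theorem place_eq_of_pole (a : L) (hgen : k⟮a⟯ = ⊤) (P Q : Place k L) (hP : P.ord a < 0)
    (hQ : Q.ord a < 0) : P = Q := by
  refine Ev_place_eq_of_zero' a⁻¹ (by rw [Fermat.Agent.S24.adjoin_inv_eq, hgen]) P Q ?_ ?_
  · rw [P.ord_inv]; omega
  · rw [Q.ord_inv]; omega

/-- In `k(a)` the function `a - c` has only one zero.  (`place_eq_of_pole` for `(a - c)⁻¹`, which generates the same field.) -/
theorem place_eq_of_zero (a : L) (hgen : k⟮a⟯ = ⊤) (c : k) (P Q : Place k L)
    (hP : 0 < P.ord (a - algebraMap k L c)) (hQ : 0 < Q.ord (a - algebraMap k L c)) : P = Q :=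
  Ev_place_eq_of_zero' _ (by rw [Fermat.Agent.GAL.FF.RationalAux_adjoin_sub_const, hgen]) P Q hP hQ

end Fermat.Agent.S36.Norm
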