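import Fermat.Agent.S36.Norm.Tools.Ev
import Fermat.Agent.GAL.FF.RH.Fibre
import Fermat.Agent.S19.Weil.NormOrd

/-!
# S36/Norm/Tools (T2), (T3): the value of a norm at a place

`GoodExt k L1 L` : the two facts on a finite extension `L / L1` of function fields over `k` (algebraically closed) which block NORM uses:
* `∑_{w | v} e_w = [L : L1]`;
* `(N f)(v) = ∏_{w | v} f(w) ^ e_w` for `f` a unit at all the places above `v`.
They hold for separable extensions (`goodExt_of_isSeparable`) and for the "Frobenius" extensions `L1 = L ^ q` (`goodExt_of_frobenius`).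
-/

set_option autoImplicit false

noncomputable section

namespace Fermat.Agent.S36.Norm

open AlgebraicCurve Fermat.Agent.Lib.RR Fermat.Agent.GAL.RED Fermat.Agent.DR.Abs

variable (k L1 L : Type*) [Field k] [IsAlgClosed k] [Field L1] [Field L] [Algebra k L1] [Algebra k L]
  [IsFF k L1] [IsFF k L] [Algebra L1 L] [IsScalarTower k L1 L] [FiniteDimensional L1 L]

/-- The fundamental identity and the norm formula for the values at the places. -/
structure GoodExt : Prop where
  sum : ∀ v : Place k L1, ∑ w ∈ v.fiber L, w.ramificationIndex L1 = Module.finrank L1 L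
  ev : ∀ (v : Place k L1) (f : L), (∀ w ∈ v.fiber L, 0 ≤ w.ord f ∧ ev w f ≠ 0) →
    0 ≤ v.ord (Algebra.norm L1 f) ∧
      ev v (Algebra.norm L1 f) = ∏ w ∈ v.fiber L, ev w f ^ (w.ramificationIndex L1)

variable {k L1 L}

/-- **(T2)** separable extensions.
PROOF. `sum` : `GAL.FF.sum_ramificationIndex` (cast from `ℤ`).  In particular the fibre is not empty (`finrank_pos`), so `f ≠ 0` (`ev w 0 = 0`).
`DR.Abs.ev_ne_zero_iff` : `w.ord f = 0` for all `w` in the fibre.  `ev` : `S19.Weil.ev_norm v hf h` and `ev_eq_weil`.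
`0 ≤ v.ord (N f)` : `S19/Weil/NormOrd.lean` (`v.ord (N f) = ∑_{w | v} w.ord f`-like statement; residue degrees are `1`) gives `v.ord (N f) = 0`. -/
theorem goodExt_of_isSeparable [Algebra.IsSeparable L1 L] : GoodExt k L1 L := by
  have hsum : ∀ v : Place k L1,
      ∑ w ∈ v.fiber L, w.ramificationIndex L1 = Module.finrank L1 L := by
    intro v
    have h := Fermat.Agent.GAL.FF.sum_ramificationIndex (F' := L) v
    exact_mod_cast h
  refine ⟨hsum, ?_⟩
  intro v f hyp
  have hne : (v.fiber L).Nonempty := by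
    rw [Finset.nonempty_iff_ne_empty]
    intro h0
    have h1 := hsum v
    rw [h0, Finset.sum_empty] at h1
    exact (Module.finrank_pos (R := L1) (M := L)).ne h1
  obtain ⟨w0, hw0⟩ := hne
  have hf : f ≠ 0 := by
    rintro rfl
    exact (hyp w0 hw0).2 (Fermat.Agent.DR.Abs.ev_zero w0)
  have hord : ∀ w ∈ v.fiber L, w.ord f = 0 := by
    intro w hw
    exact ((Fermat.Agent.DR.Abs.ev_ne_zero_iff w (hyp w hw).1).1 (hyp w hw).2).2
  constructor
  · rw [Fermat.Agent.S19.Weil.ord_norm v hf, Finset.sum_eq_zero hord]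
  · have h := Fermat.Agent.S19.Weil.ev_norm v hf hord
    simp only [ev_eq_weil]
    exact h

section frobenius

variable {q : ℕ}

/-- field-theoretic core of `algebraMap_norm_of_frobenius`. -/
theorem NormEv_norm_frob {L1 L : Type*} [Field L1] [Field L] [Algebra L1 L] [FiniteDimensional L1 L]
    {q : ℕ} (hq : q.Prime) [CharP L1 q] (hfin : Module.finrank L1 L = q)
    (u : L) (g : L1) (hg : algebraMap L1 L g = u ^ q) :
    Algebra.norm L1 u = g := by
  have : Fact q.Prime := ⟨hq⟩
  have : CharP L q := charP_of_injective_algebraMap (algebraMap L1 L).injective q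
  by_cases hu : u ∈ (⊥ : IntermediateField L1 L)
  · obtain ⟨c, rfl⟩ := IntermediateField.mem_bot.1 hu
    rw [Algebra.norm_algebraMap, hfin]
    apply (algebraMap L1 L).injective
    rw [hg, map_pow]
  · have hsimple := IntermediateField.isSimpleOrder_of_finrank_prime L1 L (hfin ▸ hq)
    have htop : IntermediateField.adjoin L1 {u} = ⊤ := by
      rcases eq_bot_or_eq_top (IntermediateField.adjoin L1 {u}) with h | h
      · exact absurd (IntermediateField.adjoin_simple_eq_bot_iff.1 h) hu
      · exact h
    have hint : IsIntegral L1 u := Algebra.IsIntegral.isIntegral u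
    have hdeg : (minpoly L1 u).natDegree = q := by
      rw [← IntermediateField.adjoin.finrank hint, htop, IntermediateField.finrank_top', hfin]
    have hmin : Polynomial.X ^ q - Polynomial.C g = minpoly L1 u := by
      refine Polynomial.eq_of_monic_of_dvd_of_natDegree_le (minpoly.monic hint)
        (Polynomial.monic_X_pow_sub_C g hq.ne_zero) (minpoly.dvd L1 u ?_) ?_
      · simp [hg]
      · rw [Polynomial.natDegree_X_pow_sub_C, hdeg]
    let e : (IntermediateField.adjoin L1 {u}) ≃ₐ[L1] L := (IntermediateField.equivOfEq htop).trans IntermediateField.topEquiv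
    let pb : PowerBasis L1 L := (IntermediateField.adjoin.powerBasis hint).map e
    have hgen : pb.gen = u := rfl
    have h1 := Algebra.PowerBasis.norm_gen_eq_coeff_zero_minpoly pb
    rw [hgen, ← hmin] at h1
    have hdim : pb.dim = q := by
      rw [← pb.natDegree_minpoly, hgen, hdeg]
    rw [h1, hdim, neg_one_pow_char L1 q]
    simp [hq.ne_zero.symm]

/-- **(T3a)** the norm of a purely inseparable extension of prime degree.
PROOF. If `u = algebraMap g`: `Algebra.norm_algebraMap`, `hfin`.  Otherwise `L1⟮u⟯ = ⊤` (`finrank L1 L1⟮u⟯` divides the prime `q` and is `≠ 1`: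
`IntermediateField.finrank_eq_one_iff`, `IntermediateField.adjoin_simple_eq_bot_iff`), so `natDegree (minpoly L1 u) = q`; `minpoly L1 u ∣ X ^ q - C g`, `algebraMap g = u ^ q`
(`minpoly.dvd`), both monic of degree `q`: equal.  `Algebra.norm` of a generator: `(IntermediateField.adjoin.powerBasis _).norm_gen_eq_coeff_zero_minpoly` (transport along `⊤ ≃ L`),
or `Algebra.norm_eq_norm_adjoin`/`Algebra.norm_eq_prod_roots` (in a splitting field `X ^ q - g = (X - u) ^ q`, `sub_pow_char`):
`N u = (-1) ^ q * (-g) = g` (`q` odd, or `q = 2 = char`, `neg_one_pow_char`-like: `CharP.neg_one_pow_char`). -/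
theorem algebraMap_norm_of_frobenius (hq : q.Prime) [CharP k q] (hfin : Module.finrank L1 L = q)
    (h1 : ∀ u : L, ∃ g : L1, algebraMap L1 L g = u ^ q) (u : L) :
    algebraMap L1 L (Algebra.norm L1 u) = u ^ q := by
  have : CharP L1 q := charP_of_injective_algebraMap (algebraMap k L1).injective q
  obtain ⟨g, hg⟩ := h1 u
  rw [NormEv_norm_frob hq hfin u g hg, hg]

omit [IsAlgClosed k] [IsFF k L] in
theorem NormEv_pow_mem_iff (hq : 0 < q) (w : Place k L) (f : L) :
    f ^ q ∈ w.toValuationSubring ↔ f ∈ w.toValuationSubring := by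
  constructor
  · intro h
    rcases w.toValuationSubring.mem_or_inv_mem f with h' | h'
    · exact h'
    · obtain ⟨m, rfl⟩ : ∃ m, q = m + 1 := ⟨q - 1, by omega⟩
      rcases eq_or_ne f 0 with rfl | hf
      · exact zero_mem _
      have e : f = f ^ (m + 1) * f⁻¹ ^ m := by
        rw [pow_succ, inv_pow]
        field_simp
      rw [e]
      exact mul_mem h (pow_mem h' m)
  · intro h
    exact pow_mem h q

/-- **(T3b)** there is only one place above a given place.
PROOF. `f ∈ O_w ↔ f ^ q ∈ O_w` (`ord_pow`, `q > 0`) `↔ g ∈ O_{w | L1}` where `algebraMap g = f ^ q`.  So two places with the same restriction have the same valuation ring. -/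
theorem restrict_injective_of_frobenius (hq : 0 < q)
    (h1 : ∀ u : L, ∃ g : L1, algebraMap L1 L g = u ^ q) :
    Function.Injective (fun w : Place k L => w.restrict L1) := by
  intro w w' h
  apply Place.ext
  ext f
  obtain ⟨g, hg⟩ := h1 f
  have key : ∀ w : Place k L,
      f ∈ w.toValuationSubring ↔ g ∈ (w.restrict L1).toValuationSubring := by
    intro w
    rw [Place.mem_restrict_iff, hg]
    exact (NormEv_pow_mem_iff hq w f).symm
  have h' : w.restrict L1 = w'.restrict L1 := h
  rw [key w, key w', h']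

/-- **(T3c)** the ramification index is `q`.
PROOF. `Place.ord_restrict`: `w.ord (algebraMap g) = e * (w.restrict L1).ord g`.  Let `π : L` with `w.ord π = 1` (uniformiser: `Place.exists_ord_eq_one`-like, look in the
Prelude/`Lib/RR`), `algebraMap g = π ^ q`: `q = e * n`, so `e ∣ q`.  Let `g'` with `(w.restrict L1).ord g' = 1`, `algebraMap g' = h ^ q` (`h2`): `q * w.ord h = e`, so `q ∣ e`. -/
theorem ramificationIndex_of_frobenius (hq : 0 < q)
    (h1 : ∀ u : L, ∃ g : L1, algebraMap L1 L g = u ^ q)
    (h2 : ∀ g : L1, ∃ u : L, algebraMap L1 L g = u ^ q) (w : Place k L) :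
    w.ramificationIndex L1 = q := by
  obtain ⟨π, hπ⟩ := IsDiscreteValuationRing.exists_irreducible w.toValuationSubring
  have hπord : w.ord (π : L) = 1 := w.ord_coe_irreducible hπ
  obtain ⟨π', hπ'⟩ := IsDiscreteValuationRing.exists_irreducible (w.restrict L1).toValuationSubring
  have hπ'ord : (w.restrict L1).ord (π' : L1) = 1 := (w.restrict L1).ord_coe_irreducible hπ'
  obtain ⟨g, hg⟩ := h1 (π : L)
  obtain ⟨u, hu⟩ := h2 (π' : L1)
  have e1 := w.ord_restrict (F := L1) g
  rw [hg, ord_pow, hπord, mul_one] at e1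
  have e2 := w.ord_restrict (F := L1) (π' : L1)
  rw [hu, ord_pow, hπ'ord, mul_one] at e2
  apply Nat.dvd_antisymm
  · rw [← Int.natCast_dvd_natCast]
    exact ⟨_, e1⟩
  · rw [← Int.natCast_dvd_natCast]
    exact ⟨_, e2.symm⟩

omit [IsAlgClosed k] [IsFF k L1] [IsFF k L] [IsScalarTower k L1 L] [FiniteDimensional L1 L] in
/-- the ring homomorphism `u ↦ u ^ q` from `L` to `L1`. -/
def NormEv_phi (hq : q.Prime) [CharP k q]
    (h1 : ∀ u : L, ∃ g : L1, algebraMap L1 L g = u ^ q) : L →+* L1 where
  toFun u := (h1 u).choose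
  map_one' := (algebraMap L1 L).injective (by rw [(h1 1).choose_spec, one_pow, map_one])
  map_mul' x y := (algebraMap L1 L).injective (by
    rw [(h1 (x * y)).choose_spec, map_mul, (h1 x).choose_spec, (h1 y).choose_spec, mul_pow])
  map_zero' := (algebraMap L1 L).injective (by
    rw [(h1 0).choose_spec, map_zero, zero_pow hq.ne_zero])
  map_add' x y := (algebraMap L1 L).injective (by
    have : CharP L q := charP_of_injective_algebraMap (algebraMap k L).injective q
    have : Fact q.Prime := ⟨hq⟩
    rw [(h1 (x + y)).choose_spec, map_add, (h1 x).choose_spec, (h1 y).choose_spec, add_pow_char])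

omit [IsAlgClosed k] [IsFF k L1] [IsFF k L] [IsScalarTower k L1 L] [FiniteDimensional L1 L] in
theorem NormEv_phi_spec (hq : q.Prime) [CharP k q]
    (h1 : ∀ u : L, ∃ g : L1, algebraMap L1 L g = u ^ q) (u : L) :
    algebraMap L1 L (NormEv_phi (k := k) hq h1 u) = u ^ q := (h1 u).choose_spec

/-- every place of `L1` has a place above it.
PROOF. By `h1`, `h2` and the injectivity of `algebraMap L1 L`, `u ↦ (the g with algebraMap g = u ^ q)` is a ring isomorphism `φ : L ≃+* L1` (`add_pow_char`, `CharP L q` from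
`charP_of_injective_algebraMap`), with `φ (algebraMap L1 L g) = g ^ q` and `φ (algebraMap k L c) = algebraMap k L1 (c ^ q)`.
`w := ⟨v.toValuationSubring.comap φ, _, _, _⟩ : Place k L`: it contains the constants, it is `≠ ⊤` (`φ` is onto, `v.ne_top'`), it is a principal ideal ring since `φ` restricts to a ring
isomorphism with `v.toValuationSubring` (`IsPrincipalIdealRing.of_surjective`).  `g ∈ O_{w | L1} ↔ g ^ q ∈ O_v ↔ g ∈ O_v` (`Lib.PlaceEval.mem_iff`, `ord_pow`); places with the same valuation ring are equal. -/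
theorem exists_restrict_eq_of_frobenius (hq : q.Prime) [CharP k q]
    (h1 : ∀ u : L, ∃ g : L1, algebraMap L1 L g = u ^ q)
    (h2 : ∀ g : L1, ∃ u : L, algebraMap L1 L g = u ^ q) (v : Place k L1) :
    ∃ w : Place k L, w.restrict L1 = v := by
  set φ := NormEv_phi (k := k) hq h1 with hφ
  have hspec : ∀ u, algebraMap L1 L (φ u) = u ^ q := NormEv_phi_spec (k := k) hq h1
  have hinj := (algebraMap L1 L).injective
  have hsurj : Function.Surjective φ := by
    intro g
    obtain ⟨u, hu⟩ := h2 g
    exact ⟨u, hinj (by rw [hspec, hu])⟩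
  have hφa : ∀ g : L1, φ (algebraMap L1 L g) = g ^ q := by
    intro g
    apply hinj
    rw [hspec, map_pow]
  have hφk : ∀ c : k, φ (algebraMap k L c) = algebraMap k L1 (c ^ q) := by
    intro c
    apply hinj
    rw [hspec, ← IsScalarTower.algebraMap_apply, map_pow]
  set e : L ≃+* L1 := RingEquiv.ofBijective φ ⟨φ.injective, hsurj⟩ with he
  have hee : ∀ a : L1, φ (e.symm a) = a := fun a => e.apply_symm_apply a
  set W : ValuationSubring L := v.toValuationSubring.comap φ with hW
  let f : v.toValuationSubring →+* W :=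
    ((e.symm : L1 →+* L).comp v.toValuationSubring.subtype).codRestrict W.toSubring (fun a => by
      show φ (e.symm (a : L1)) ∈ v.toValuationSubring
      rw [hee]
      exact a.2)
  have hf : Function.Surjective f := by
    intro x
    refine ⟨⟨φ x.1, x.2⟩, ?_⟩
    apply Subtype.ext
    show e.symm (φ x.1) = x.1
    exact e.symm_apply_apply x.1
  haveI := v.isPrincipalIdealRing'
  refine ⟨⟨W, fun c => ?_, ?_, IsPrincipalIdealRing.of_surjective f hf⟩, ?_⟩
  · show φ (algebraMap k L c) ∈ v.toValuationSubring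
    rw [hφk]
    exact v.algebraMap_mem' _
  · intro htop
    apply v.ne_top'
    refine SetLike.ext fun g => ⟨fun _ => ValuationSubring.mem_top g, fun _ => ?_⟩
    obtain ⟨u, rfl⟩ := hsurj g
    have : u ∈ W := htop ▸ ValuationSubring.mem_top u
    exact this
  · apply Place.ext
    ext g
    rw [Place.mem_restrict_iff]
    show φ (algebraMap L1 L g) ∈ v.toValuationSubring ↔ _
    rw [hφa]
    exact NormEv_pow_mem_iff hq.pos v g

/-- **(T3)** Frobenius extensions.
PROOF. the fibre of `v` is a singleton `{w}` (`exists_restrict_eq_of_frobenius`, `restrict_injective_of_frobenius`, `Place.mem_fiber`, `Finset.eq_singleton_iff_unique_mem`),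
`e_w = q = [L : L1]`.  `ev v (N f) = ev w (algebraMap (N f)) = ev w (f ^ q) = ev w f ^ q` (`ev_algebraMap_restrict`, `algebraMap_norm_of_frobenius`, `DR.Abs.ev_pow`);
`0 ≤ v.ord (N f)` by `ord_algebraMap_nonneg_iff`, `ord_pow`. -/
theorem goodExt_of_frobenius (hq : q.Prime) [CharP k q] (hfin : Module.finrank L1 L = q)
    (h1 : ∀ u : L, ∃ g : L1, algebraMap L1 L g = u ^ q)
    (h2 : ∀ g : L1, ∃ u : L, algebraMap L1 L g = u ^ q) : GoodExt k L1 L := by
  have hfib : ∀ v : Place k L1, ∃ w : Place k L, w.restrict L1 = v ∧ v.fiber L = {w} := by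
    intro v
    obtain ⟨w, hw⟩ := exists_restrict_eq_of_frobenius hq h1 h2 v
    refine ⟨w, hw, ?_⟩
    rw [Finset.eq_singleton_iff_unique_mem]
    refine ⟨Place.mem_fiber.2 hw, fun w' hw' => ?_⟩
    apply restrict_injective_of_frobenius hq.pos h1
    show w'.restrict L1 = w.restrict L1
    rw [Place.mem_fiber.1 hw', hw]
  constructor
  · intro v
    obtain ⟨w, -, hw⟩ := hfib v
    rw [hw, Finset.sum_singleton, ramificationIndex_of_frobenius hq.pos h1 h2 w, hfin]
  · intro v f hf
    obtain ⟨w, hwv, hw⟩ := hfib v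
    obtain ⟨h0, -⟩ := hf w (by rw [hw]; exact Finset.mem_singleton_self w)
    have hN := algebraMap_norm_of_frobenius (k := k) hq hfin h1 f
    rw [hw, Finset.prod_singleton, ramificationIndex_of_frobenius hq.pos h1 h2 w, ← hwv]
    constructor
    · rw [← ord_algebraMap_nonneg_iff, hN, ord_pow]
      positivity
    · rw [← ev_algebraMap_restrict, hN, ev_pow w h0]

end frobenius

/-- the fibres are not empty. -/
theorem GoodExt.fiber_nonempty (h : GoodExt k L1 L) (v : Place k L1) : (v.fiber L).Nonempty := by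
  rw [Finset.nonempty_iff_ne_empty]
  intro h0
  have h1 := h.sum v
  rw [h0, Finset.sum_empty] at h1
  exact (Module.finrank_pos (R := L1) (M := L)).ne h1

/-- A set of places above `v`, with lower bounds for the ramification indices which add up to the degree, is the whole fibre.
PROOF. `S ⊆ v.fiber L`; `[L : L1] ≤ ∑_S r ≤ ∑_S e ≤ ∑_fibre e = [L : L1]` (`Finset.sum_le_sum`, `Finset.sum_le_sum_of_subset`): all are equalities.
`e_w > 0` (`Place.ramificationIndex_pos`) so no place of the fibre is missing (`Finset.sum_lt_sum_of_subset`-like), and `r w = e_w` termwise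
(`Finset.sum_eq_sum_iff_of_le`). -/
theorem GoodExt.fiber_eq (h : GoodExt k L1 L) (v : Place k L1) (S : Finset (Place k L)) (r : Place k L → ℕ)
    (hS : ∀ w ∈ S, w.restrict L1 = v) (hr : ∀ w ∈ S, r w ≤ w.ramificationIndex L1)
    (hsum : Module.finrank L1 L ≤ ∑ w ∈ S, r w) :
    v.fiber L = S ∧ ∀ w ∈ S, w.ramificationIndex L1 = r w := by
  classical
  have hsub : S ⊆ v.fiber L := fun w hw => Place.mem_fiber.mpr (hS w hw)
  have h1 : ∑ w ∈ S, r w ≤ ∑ w ∈ S, w.ramificationIndex L1 := Finset.sum_le_sum hr
  have h2 : ∑ w ∈ S, w.ramificationIndex L1 ≤ ∑ w ∈ v.fiber L, w.ramificationIndex L1 :=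
    Finset.sum_le_sum_of_subset hsub
  have h3 := h.sum v
  have h4 : ∑ w ∈ S, r w = ∑ w ∈ S, w.ramificationIndex L1 := by omega
  have h5 : ∑ w ∈ S, w.ramificationIndex L1 = ∑ w ∈ v.fiber L, w.ramificationIndex L1 := by omega
  constructor
  · refine (Finset.Subset.antisymm hsub ?_).symm
    intro w hw
    by_contra hwS
    have h6 : ∑ w ∈ S, w.ramificationIndex L1 < ∑ w ∈ v.fiber L, w.ramificationIndex L1 :=
      Finset.sum_lt_sum_of_subset hsub hw hwS (w.ramificationIndex_pos (F := L1))
        (fun _ _ _ => Nat.zero_le _)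
    omega
  · intro w hw
    exact (((Finset.sum_eq_sum_iff_of_le hr).1 h4) w hw).symm

end Fermat.Agent.S36.Norm
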